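/-
S28 long-shot, helper19: symmetric-function theorem in the `ConvTo` calculus.

For a finite family of functions `F θ` on `ℍ` with convergent `t = q^{1/N}`-expansions `φ θ`,
permuted by `SL(2,ℤ)`, every coefficient of `∏ θ, (X - φ θ)` is a polynomial in `j(t^N)`;
if all `φ θ` have coefficients in a subring `S ⊆ ℂ`, the polynomials have coefficients in `S`.
Built on helper205 (`ConvTo`), helper565 (polynomial principle), helper685 (J4), all on main.
-/
import Mathlib
import Fermat.Agent.S28.H205.Conv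
import Fermat.Agent.S28.H565.PolyPrinciple
import Fermat.Agent.S28.H685.JIntegral

set_option autoImplicit false

noncomputable section

namespace Fermat.Agent.S28.H19

open UpperHalfPlane Polynomial
open scoped MatrixGroups Manifold
open Fermat.Agent.S28.H205

variable {N : ℕ} {Θ : Type*}

/-- The pointwise polynomial `∏ θ ∈ s, (X - F θ τ)`. -/
def ptPoly (F : Θ → ℍ → ℂ) (s : Finset Θ) (τ : ℍ) : Polynomial ℂ :=
  ∏ θ ∈ s, (X - C (F θ τ))

/-- The formal polynomial `∏ θ ∈ s, (X - φ θ)`. -/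
def fmPoly (φ : Θ → LaurentSeries ℂ) (s : Finset Θ) : Polynomial (LaurentSeries ℂ) :=
  ∏ θ ∈ s, (X - C (φ θ))

theorem coeff_X_sub_C_mul' {R : Type*} [CommRing R] (a : R) (p : Polynomial R) (k : ℕ) :
    ((X - C a) * p).coeff k = (if 1 ≤ k then p.coeff (k - 1) else 0) - a * p.coeff k := by
  rw [sub_mul, coeff_sub, coeff_C_mul]
  congr 1
  cases k with
  | zero => simp
  | succ k => simp [coeff_X_mul]

theorem ptPoly_coeff_convTo (F : Θ → ℍ → ℂ) (φ : Θ → LaurentSeries ℂ)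
    (hexp : ∀ θ, ConvTo N (φ θ) (F θ)) (s : Finset Θ) :
    ∀ k : ℕ, ConvTo N ((fmPoly φ s).coeff k) (fun τ => (ptPoly F s τ).coeff k) := by
  classical
  induction s using Finset.induction_on with
  | empty =>
    intro k
    simp only [ptPoly, fmPoly, Finset.prod_empty, coeff_one]
    by_cases hk : k = 0
    · simp only [hk, if_true]
      exact (convTo_one N).congr_fun fun _ => rfl
    · simp only [hk, if_false]
      exact (convTo_zero N).congr_fun fun _ => rfl
  | insert a s ha ih =>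
    intro k
    have e1 : ∀ τ, (ptPoly F (insert a s) τ).coeff k =
        (if 1 ≤ k then (ptPoly F s τ).coeff (k - 1) else 0) - F a τ * (ptPoly F s τ).coeff k := by
      intro τ
      rw [ptPoly, Finset.prod_insert ha, coeff_X_sub_C_mul']
      rfl
    have e2 : (fmPoly φ (insert a s)).coeff k =
        (if 1 ≤ k then (fmPoly φ s).coeff (k - 1) else 0) - φ a * (fmPoly φ s).coeff k := by
      rw [fmPoly, Finset.prod_insert ha, coeff_X_sub_C_mul']
      rfl
    rw [e2]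
    have hprod : ConvTo N (φ a * (fmPoly φ s).coeff k)
        (fun τ => F a τ * (ptPoly F s τ).coeff k) :=
      ((hexp a).mul (ih k)).congr_fun fun _ => rfl
    by_cases hk : 1 ≤ k
    · simp only [hk, if_true]
      exact ((ih (k - 1)).sub hprod).congr_fun fun τ => by
        rw [e1 τ]; simp [hk]
    · simp only [hk, if_false]
      exact ((convTo_zero N).sub hprod).congr_fun fun τ => by
        rw [e1 τ]; simp [hk]

theorem ptPoly_invariant [Fintype Θ] (F : Θ → ℍ → ℂ) (π : SL(2, ℤ) → Θ ≃ Θ)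
    (hπ : ∀ (γ : SL(2, ℤ)) (θ : Θ) (τ : ℍ), F θ (γ • τ) = F (π γ θ) τ)
    (γ : SL(2, ℤ)) (τ : ℍ) :
    ptPoly F Finset.univ (γ • τ) = ptPoly F Finset.univ τ := by
  unfold ptPoly
  simp only [hπ]
  exact Equiv.prod_comp (π γ) (fun θ => (X - C (F θ τ) : Polynomial ℂ))

theorem fmPoly_monic (φ : Θ → LaurentSeries ℂ) (s : Finset Θ) : (fmPoly φ s).Monic :=
  monic_prod_of_monic _ _ fun θ _ => monic_X_sub_C (φ θ)

theorem fmPoly_natDegree (φ : Θ → LaurentSeries ℂ) (s : Finset Θ) :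
    (fmPoly φ s).natDegree = s.card := by
  unfold fmPoly
  rw [natDegree_prod_of_monic _ _ fun θ _ => monic_X_sub_C (φ θ)]
  simp

/-- `ConvTo` is helper565's `HasTExp`. -/
theorem hasTExp_of_convTo {φ : LaurentSeries ℂ} {f : ℍ → ℂ} (h : ConvTo N φ f) :
    H565.HasTExp (N : ℝ) f φ := h

theorem convTo_of_hasTExp {φ : LaurentSeries ℂ} {f : ℍ → ℂ} (h : H565.HasTExp (N : ℝ) f φ) :
    ConvTo N φ f := h

/-- **Symmetric-function theorem.**  Every coefficient of `∏ θ, (X - φ θ)` is a polynomial in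
`j(t^N)`. -/
theorem exists_coeff_eq_aeval [Fintype Θ] [NeZero N] (F : Θ → ℍ → ℂ)
    (φ : Θ → LaurentSeries ℂ) (hexp : ∀ θ, ConvTo N (φ θ) (F θ))
    (π : SL(2, ℤ) → Θ ≃ Θ)
    (hπ : ∀ (γ : SL(2, ℤ)) (θ : Θ) (τ : ℍ), F θ (γ • τ) = F (π γ θ) τ) (k : ℕ) :
    ∃ Q : Polynomial ℂ, (fmPoly φ Finset.univ).coeff k =
      Polynomial.aeval (ModularCurve.qExpand ℂ N (ModularCurve.jqModC ℂ)) Q := by
  have h1 := ptPoly_coeff_convTo F φ hexp Finset.univ k
  obtain ⟨Q, -, hQ⟩ := H565.exists_polynomial_of_invariant (N := N) h1.mdiff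
    (fun γ τ => by simp only [ptPoly_invariant F π hπ γ τ]) (hasTExp_of_convTo h1)
  exact ⟨Q, hQ⟩

/-! ### Coefficient subrings -/

/-- Laurent series with all coefficients in the subring `S`. -/
def coeffsIn (S : Subring ℂ) : Subring (LaurentSeries ℂ) where
  carrier := {φ | ∀ n : ℤ, φ.coeff n ∈ S}
  mul_mem' := fun {x y} hx hy n => by
    rw [HahnSeries.coeff_mul]
    exact S.sum_mem fun ij _ => S.mul_mem (hx _) (hy _)
  one_mem' := fun n => by
    rw [HahnSeries.coeff_one]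
    split_ifs
    · exact S.one_mem
    · exact S.zero_mem
  add_mem' := fun {x y} hx hy n => by
    rw [HahnSeries.coeff_add]
    exact S.add_mem (hx n) (hy n)
  zero_mem' := fun n => by
    rw [HahnSeries.coeff_zero]
    exact S.zero_mem
  neg_mem' := fun {x} hx n => by
    rw [HahnSeries.coeff_neg]
    exact S.neg_mem (hx n)

theorem mem_coeffsIn {S : Subring ℂ} {φ : LaurentSeries ℂ} :
    φ ∈ coeffsIn S ↔ ∀ n : ℤ, φ.coeff n ∈ S := Iff.rfl

theorem fmPoly_coeff_mem (S : Subring ℂ) (φ : Θ → LaurentSeries ℂ)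
    (hC : ∀ θ, φ θ ∈ coeffsIn S) (s : Finset Θ) (k : ℕ) :
    (fmPoly φ s).coeff k ∈ coeffsIn S := by
  classical
  have hmem : fmPoly φ s ∈ Polynomial.lifts (coeffsIn S).subtype := by
    unfold fmPoly
    refine prod_mem fun θ _ => ?_
    refine (Polynomial.mem_lifts _).mpr ⟨X - C ⟨φ θ, hC θ⟩, ?_⟩
    simp
  rw [Polynomial.lifts_iff_coeff_lifts] at hmem
  obtain ⟨y, hy⟩ := hmem k
  rw [← hy]
  exact y.2

/-- `aeval` commutes with `qExpand`. -/
theorem aeval_qExpand (N : ℕ) [NeZero N] (y : LaurentSeries ℂ) (Q : Polynomial ℂ) :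
    Polynomial.aeval (ModularCurve.qExpand ℂ N y) Q =
      ModularCurve.qExpand ℂ N (Polynomial.aeval y Q) := by
  have h := Polynomial.aeval_algHom_apply (ModularCurve.qExpandAlgHomC ℂ N) y Q
  simpa [ModularCurve.qExpandAlgHomC_apply] using h

/-- **Symmetric-function theorem with coefficients in a subring.** -/
theorem exists_coeff_eq_aeval_mem [Fintype Θ] [NeZero N] (S : Subring ℂ) (F : Θ → ℍ → ℂ)
    (φ : Θ → LaurentSeries ℂ) (hexp : ∀ θ, ConvTo N (φ θ) (F θ))
    (hC : ∀ θ, φ θ ∈ coeffsIn S)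
    (π : SL(2, ℤ) → Θ ≃ Θ)
    (hπ : ∀ (γ : SL(2, ℤ)) (θ : Θ) (τ : ℍ), F θ (γ • τ) = F (π γ θ) τ) (k : ℕ) :
    ∃ Q : Polynomial ℂ, (∀ i, Q.coeff i ∈ S) ∧ (fmPoly φ Finset.univ).coeff k =
      ModularCurve.qExpand ℂ N (Polynomial.aeval (ModularCurve.jqModC ℂ) Q) := by
  obtain ⟨Q, hQ⟩ := exists_coeff_eq_aeval F φ hexp π hπ k
  rw [aeval_qExpand] at hQ
  refine ⟨Q, ?_, hQ⟩
  refine H685.coeff_mem_of_aeval_jqModC S Q.natDegree Q le_rfl fun m => ?_
  have h1 := fmPoly_coeff_mem S φ hC Finset.univ k ((N : ℤ) * m)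
  rw [hQ, ModularCurve.qExpand_coeff_mul] at h1
  exact h1

end Fermat.Agent.S28.H19

end
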