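/-
S28 long-shot, helper19: the conjugates of `p¹² Δ(pτ)/Δ(τ)` and the resulting monic relation
over `ℤ̄[j]` for `w = p¹² Δ(q^p)/Δ(q)` in `ℂ((q))`.
-/
import Mathlib
import Fermat.Agent.S28.Defs
import Fermat.Agent.S28.H88.Theta
import Fermat.Agent.S28.H628.Conj
import Fermat.Agent.S28.H19.SymmFun

set_option autoImplicit false

noncomputable section

namespace Fermat.Agent.S28.H19

open UpperHalfPlane Polynomial CongruenceSubgroup ModularCurve
open scoped MatrixGroups Manifold Real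
open Fermat.Agent.S28.H205 Fermat.Agent.S28.H628

/-- The algebraic integers, as a subring of `ℂ`. -/
def intC : Subring ℂ := (integralClosure ℤ ℂ).toSubring

theorem mem_intC {z : ℂ} : z ∈ intC ↔ IsIntegral ℤ z := Iff.rfl

theorem intCast_mem_intC (n : ℤ) : (n : ℂ) ∈ intC := intCast_mem intC n

/-! ### The series of `Δ` -/

theorem deltaL_eq : deltaL ℂ = H565.deltaSeriesC := by
  rw [deltaL, H565.deltaSeriesC, H565.map_dedekindEtaUnit]

theorem convTo_deltaL : ConvTo 1 (deltaL ℂ) ModularForm.discriminant := by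
  rw [deltaL_eq]
  intro τ
  have h := H565.hasTExp_discriminant τ
  simpa [tPar] using h

theorem deltaL_inv : (deltaL ℂ)⁻¹ = deltaInvL ℂ :=
  inv_eq_of_mul_eq_one_right (h88_deltaL_mul_deltaInvL ℂ)

theorem deltaL_coeff_mem (n : ℤ) : (deltaL ℂ).coeff n ∈ intC := by
  rw [← h88_coeffMap_deltaL (Int.castRingHom ℂ), coeffMap_coeff]
  exact intCast_mem_intC _

theorem deltaL_inv_coeff_mem (n : ℤ) : ((deltaL ℂ)⁻¹).coeff n ∈ intC := by
  rw [deltaL_inv, ← h88_coeffMap_deltaInvL (Int.castRingHom ℂ), coeffMap_coeff]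
  exact intCast_mem_intC _

/-! ### Roots of unity are algebraic integers -/

theorem zetaU_pow_eq_one {M : ℕ} (hM : 0 < M) (b : ℤ) : ((zetaU M b : ℂˣ) : ℂ) ^ M = 1 := by
  rw [coe_zetaU, ← Complex.exp_nat_mul]
  have hM' : (M : ℂ) ≠ 0 := by exact_mod_cast hM.ne'
  have : (M : ℂ) * (2 * π * Complex.I * b / M) = b * (2 * π * Complex.I) := by
    field_simp
  rw [this, Complex.exp_int_mul_two_pi_mul_I]

theorem zetaU_mem_intC {M : ℕ} (hM : 0 < M) (b : ℤ) : ((zetaU M b : ℂˣ) : ℂ) ∈ intC := by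
  rw [mem_intC]
  refine IsIntegral.of_pow hM ?_
  rw [zetaU_pow_eq_one hM]
  exact isIntegral_one

theorem zetaU_inv_mem_intC {M : ℕ} (hM : 0 < M) (b : ℤ) :
    (((zetaU M b)⁻¹ : ℂˣ) : ℂ) ∈ intC := by
  rw [mem_intC]
  refine IsIntegral.of_pow hM ?_
  rw [Units.val_inv_eq_inv_val, inv_pow, zetaU_pow_eq_one hM, inv_one]
  exact isIntegral_one

/-! ### The function `p¹² Δ(pτ)/Δ(τ)` and its conjugates -/

/-- Multiplication by `p` on `ℍ`. -/
def mulH (p : ℕ) (τ : ℍ) : ℍ := affH p 0 1 τ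

theorem coe_mulH {p : ℕ} (hp : 0 < p) (τ : ℍ) : (mulH p τ : ℂ) = (p : ℂ) * (τ : ℂ) := by
  rw [mulH, coe_affH hp one_pos]
  simp

/-- `p¹² Δ(pτ)/Δ(τ)`. -/
def unitFun (p : ℕ) (τ : ℍ) : ℂ :=
  (p : ℂ) ^ 12 * (ModularForm.discriminant (mulH p τ) / ModularForm.discriminant τ)

/-- The `t = q^{1/p}`-expansion of `τ ↦ unitFun p (γ • τ)`. -/
def unitSer (p : ℕ) (γ : SL(2, ℤ)) : LaurentSeries ℂ :=
  HahnSeries.C ((p : ℂ) ^ 12) * conjQuot p p γ 12 (deltaL ℂ) (deltaL ℂ)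

theorem convTo_unitSer {p : ℕ} (hp : 0 < p) (γ : SL(2, ℤ)) :
    ConvTo p (unitSer p γ) (fun τ => unitFun p (γ • τ)) :=
  ((convTo_C p _).mul (convTo_conjU convTo_deltaL hp hp dvd_rfl γ (mulH p)
    (coe_mulH hp))).congr_fun fun _ => rfl

theorem unitSer_Gamma0_mul {p : ℕ} (hp : 0 < p) {γ₀ : SL(2, ℤ)} (hγ₀ : γ₀ ∈ Gamma0 p)
    (γ : SL(2, ℤ)) : unitSer p (γ₀ * γ) = unitSer p γ := by
  unfold unitSer
  rw [conjQuot_Gamma0_mul hp dvd_rfl hγ₀]

theorem unitFun_Gamma0 {p : ℕ} (hp : 0 < p) {γ₀ : SL(2, ℤ)} (hγ₀ : γ₀ ∈ Gamma0 p) (τ : ℍ) :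
    unitFun p (γ₀ • τ) = unitFun p τ := by
  have h1 := convTo_unitSer hp (γ₀ * 1)
  rw [unitSer_Gamma0_mul hp hγ₀] at h1
  have h2 := convTo_unitSer hp 1
  have h3 := congrFun (h1.fun_unique h2) τ
  simpa using h3

/-- The coefficients of all conjugate expansions are algebraic integers. -/
theorem unitSer_mem {p : ℕ} (hp : 0 < p) (γ : SL(2, ℤ)) : unitSer p γ ∈ coeffsIn intC := by
  have hD := hermD_pos hp γ
  obtain ⟨m, hm⟩ := hermD_dvd p γ
  have hD0 : (hermD p γ : ℂ) ≠ 0 := by exact_mod_cast hD.ne'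
  have hc : (p : ℂ) ^ 12 * ((hermD p γ : ℂ)) ^ (-(12 : ℤ)) = ((m : ℕ) : ℂ) ^ 12 := by
    have : (p : ℂ) = (hermD p γ : ℂ) * (m : ℂ) := by exact_mod_cast congrArg (Nat.cast : ℕ → ℂ) hm
    rw [this, zpow_neg, mul_pow]
    have h12 : ((hermD p γ : ℂ)) ^ (12 : ℤ) = (hermD p γ : ℂ) ^ 12 := by norm_cast
    rw [h12]
    field_simp
  have heq : unitSer p γ = HahnSeries.C (((m : ℕ) : ℂ) ^ 12) * conjSeries p p γ (deltaL ℂ) *
      (substSeries p 1 (deltaL ℂ))⁻¹ := by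
    unfold unitSer conjQuot
    rw [← hc, map_mul]
    ring
  rw [heq]
  have : NeZero p := ⟨hp.ne'⟩
  refine (coeffsIn intC).mul_mem ((coeffsIn intC).mul_mem ?_ ?_) ?_
  · intro n
    refine coeff_C_mem intC ?_ n
    have : ((m : ℕ) : ℂ) ^ 12 = ((m ^ 12 : ℕ) : ℤ) := by push_cast; rfl
    rw [this]
    exact intCast_mem_intC _
  · intro n
    exact substSeries_coeff_mem intC _ _ _ (zetaU_mem_intC hD _) (zetaU_inv_mem_intC hD _)
      deltaL_coeff_mem n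
  · intro n
    have h1 : (substSeries p 1 (deltaL ℂ))⁻¹ = substSeries p 1 (deltaL ℂ)⁻¹ := by
      rw [substSeries_unit_one, substSeries_unit_one, map_inv₀]
    rw [h1]
    exact substSeries_coeff_mem intC p 1 _ (by simp)
      (by simp) deltaL_inv_coeff_mem n

/-! ### The coset family -/

/-- Left cosets `SL(2,ℤ) ⧸ Γ₀(p)`. -/
abbrev Cos (p : ℕ) : Type := SL(2, ℤ) ⧸ Gamma0 p

instance cosFintype (p : ℕ) [NeZero p] : Fintype (Cos p) := Fintype.ofFinite _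

/-- The conjugate functions. -/
def cosF (p : ℕ) (θ : Cos p) (τ : ℍ) : ℂ := unitFun p ((Quotient.out θ)⁻¹ • τ)

/-- The conjugate series. -/
def cosS (p : ℕ) (θ : Cos p) : LaurentSeries ℂ := unitSer p (Quotient.out θ)⁻¹

theorem unitFun_coset {p : ℕ} (hp : 0 < p) {g₁ g₂ : SL(2, ℤ)}
    (h : (QuotientGroup.mk g₁ : Cos p) = QuotientGroup.mk g₂) (τ : ℍ) :
    unitFun p (g₁⁻¹ • τ) = unitFun p (g₂⁻¹ • τ) := by
  rw [QuotientGroup.eq] at h
  have h2 : g₁⁻¹ = (g₁⁻¹ * g₂) * g₂⁻¹ := by group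
  rw [h2, mul_smul, unitFun_Gamma0 hp h]

theorem cosF_smul {p : ℕ} (hp : 0 < p) (γ : SL(2, ℤ)) (θ : Cos p) (τ : ℍ) :
    cosF p θ (γ • τ) = cosF p (MulAction.toPerm γ⁻¹ θ) τ := by
  unfold cosF
  rw [← mul_smul]
  have h1 : (Quotient.out θ)⁻¹ * γ = (γ⁻¹ * Quotient.out θ)⁻¹ := by group
  rw [h1]
  refine unitFun_coset hp ?_ τ
  have e0 : ∀ θ' : Cos p, (QuotientGroup.mk (Quotient.out θ') : Cos p) = θ' :=
    fun θ' => Quotient.out_eq θ'
  rw [e0]
  show _ = γ⁻¹ • θ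
  have e2 : (QuotientGroup.mk (Quotient.out θ) : Cos p) = θ := Quotient.out_eq _
  conv_rhs => rw [← e2]
  rfl

theorem convTo_cosS {p : ℕ} (hp : 0 < p) (θ : Cos p) : ConvTo p (cosS p θ) (cosF p θ) :=
  convTo_unitSer hp _

/-- The complex series `w = p¹² Δ(q^p)/Δ(q)`. -/
def wC (p : ℕ) [NeZero p] : LaurentSeries ℂ := (p : LaurentSeries ℂ) ^ 12 * unitL ℂ p

theorem natCast_eq_C (n : ℕ) : (n : LaurentSeries ℂ) = HahnSeries.C (n : ℂ) := by
  rw [map_natCast]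

theorem unitSer_one (p : ℕ) [NeZero p] : unitSer p 1 = qExpand ℂ p (wC p) := by
  have hp : 0 < p := Nat.pos_of_ne_zero (NeZero.ne p)
  unfold unitSer wC unitL
  rw [conjQuot_one hp hp, deltaL_inv]
  simp only [map_mul, map_pow, map_natCast]

theorem cosS_one (p : ℕ) [NeZero p] :
    cosS p (QuotientGroup.mk 1) = qExpand ℂ p (wC p) := by
  have hp : 0 < p := Nat.pos_of_ne_zero (NeZero.ne p)
  unfold cosS
  rw [← unitSer_one]
  have hmem : (Quotient.out (QuotientGroup.mk 1 : Cos p))⁻¹ ∈ Gamma0 p := by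
    have e : (QuotientGroup.mk (Quotient.out (QuotientGroup.mk 1 : Cos p)) : Cos p)
        = QuotientGroup.mk 1 := Quotient.out_eq _
    rw [QuotientGroup.eq] at e
    simpa using e
  have := unitSer_Gamma0_mul hp hmem 1
  rwa [mul_one] at this

/-- **Monic relation for `w` over `ℤ̄[j]`.** -/
theorem exists_monic_relation (p : ℕ) [NeZero p] :
    ∃ (n : ℕ) (Q : ℕ → Polynomial ℂ), (∀ k i, (Q k).coeff i ∈ intC) ∧
      wC p ^ n + ∑ k ∈ Finset.range n,
        Polynomial.aeval (jqModC ℂ) (Q k) * wC p ^ k = 0 := by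
  classical
  have hp : 0 < p := Nat.pos_of_ne_zero (NeZero.ne p)
  have hex := fun k => exists_coeff_eq_aeval_mem (N := p) intC (cosF p) (cosS p)
    (convTo_cosS hp) (fun θ => unitSer_mem hp _) (fun γ => MulAction.toPerm γ⁻¹)
    (cosF_smul hp) k
  choose Q hQ1 hQ2 using hex
  set P := fmPoly (cosS p) Finset.univ with hP
  set n := Fintype.card (Cos p) with hn
  refine ⟨n, Q, hQ1, ?_⟩
  have hmonic : P.Monic := fmPoly_monic _ _
  have hdeg : P.natDegree = n := by rw [hP, fmPoly_natDegree, Finset.card_univ]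
  have hroot : P.eval (qExpand ℂ p (wC p)) = 0 := by
    rw [hP, fmPoly, Polynomial.eval_prod]
    refine Finset.prod_eq_zero (Finset.mem_univ (QuotientGroup.mk 1 : Cos p)) ?_
    rw [cosS_one]
    simp
  rw [Polynomial.eval_eq_sum_range, hdeg, Finset.sum_range_succ] at hroot
  have hlead : P.coeff n = 1 := by rw [← hdeg]; exact hmonic.coeff_natDegree
  rw [hlead, one_mul] at hroot
  apply qExpand_injective (R := ℂ) (N := p)
  rw [map_zero, map_add, map_pow, map_sum, add_comm]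
  rw [← hroot]
  congr 1
  refine Finset.sum_congr rfl fun k _ => ?_
  rw [map_mul, map_pow, ← hQ2 k]

end Fermat.Agent.S28.H19

end
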