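/-
S28 long-shot, helper19: [A-W] `nonempty_unitPolyData` — `p¹² Δ(q^p)/Δ(q)` is integral over
`ℤ[j]` (captain stub `Fermat.Agent.S28.nonempty_unitPolyData` of `Analytic.lean`, exact statement).

Route: the conjugates of `p¹² Δ(pτ)/Δ(τ)` under `SL(2,ℤ)` have `q^{1/p}`-expansions with
algebraic-integer coefficients (`UnitConj`), so `w` is a root of a monic polynomial with
coefficients in `ℤ̄[j]`; since `ℤ̄[j]` is integral over `ℤ[j]`, transitivity of integrality
gives a monic polynomial over `ℤ[j]` (no degree constraint is required by `UnitPolyData`),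
and the relation descends from `ℂ((q))` to `ℤ((q))` by injectivity of the coefficient map.
-/
import Mathlib
import Fermat.Agent.S28.Defs
import Fermat.Agent.S28.H88.Theta
import Fermat.Agent.S28.H19.UnitConj

set_option autoImplicit false

noncomputable section

namespace Fermat.Agent.S28.H19

open Polynomial ModularCurve

/-- A root of a monic polynomial with integral coefficients is integral. -/
theorem isIntegral_of_monic_relation {R A : Type*} [CommRing R] [CommRing A] [Algebra R A]
    (w : A) (n : ℕ) (y : ℕ → A) (hy : ∀ k, IsIntegral R (y k))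
    (h : w ^ n + ∑ k ∈ Finset.range n, y k * w ^ k = 0) : IsIntegral R w := by
  set T : Polynomial (integralClosure R A) :=
    ∑ k ∈ Finset.range n, C (⟨y k, hy k⟩ : integralClosure R A) * X ^ k with hT
  have hTdeg : T.degree < (n : WithBot ℕ) := by
    refine (degree_sum_le _ _).trans_lt ?_
    refine (Finset.sup_lt_iff (WithBot.bot_lt_coe n)).mpr ?_
    intro i hi
    refine (degree_C_mul_X_pow_le i _).trans_lt ?_
    exact WithBot.coe_lt_coe.mpr (Finset.mem_range.mp hi)
  have hmonic : (X ^ n + T).Monic := monic_X_pow_add hTdeg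
  have hint : IsIntegral (integralClosure R A) w := by
    refine ⟨X ^ n + T, hmonic, ?_⟩
    rw [eval₂_add, eval₂_X_pow, hT, eval₂_finsetSum, ← h]
    congr 1
    refine Finset.sum_congr rfl fun k _ => ?_
    rw [eval₂_mul, eval₂_C, eval₂_X_pow]
    rfl
  exact isIntegral_trans w hint

/-- `w = p¹² Δ(q^p)/Δ(q)` is integral over `ℤ[j]` inside `ℂ((q))`. -/
theorem isIntegralElem_wC (p : ℕ) [NeZero p] :
    (evalAt (jqModC ℂ)).IsIntegralElem (wC p) := by
  obtain ⟨n, Q, hQ, hrel⟩ := exists_monic_relation p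
  let alg : Algebra (Polynomial ℤ) (LaurentSeries ℂ) := (evalAt (jqModC ℂ)).toAlgebra
  have hj : IsIntegral (Polynomial ℤ) (jqModC ℂ) := by
    have h1 : algebraMap (Polynomial ℤ) (LaurentSeries ℂ) X = jqModC ℂ := by
      show evalAt (jqModC ℂ) X = jqModC ℂ
      simp [evalAt]
    rw [← h1]
    exact isIntegral_algebraMap
  have hc : ∀ c : ℂ, c ∈ intC → IsIntegral (Polynomial ℤ) (algebraMap ℂ (LaurentSeries ℂ) c) := by
    intro c hc
    obtain ⟨P, hP, hPc⟩ := mem_intC.mp hc
    show (evalAt (jqModC ℂ)).IsIntegralElem (algebraMap ℂ (LaurentSeries ℂ) c)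
    refine ⟨P.map Polynomial.C, hP.map _, ?_⟩
    rw [Polynomial.eval₂_map]
    have hcomp : (evalAt (jqModC ℂ)).comp (Polynomial.C) =
        (algebraMap ℂ (LaurentSeries ℂ)).comp (algebraMap ℤ ℂ) := RingHom.ext_int _ _
    rw [hcomp, ← Polynomial.hom_eval₂, hPc, map_zero]
  have hy : ∀ k, IsIntegral (Polynomial ℤ) (Polynomial.aeval (jqModC ℂ) (Q k)) := by
    intro k
    rw [Polynomial.aeval_eq_sum_range]
    refine IsIntegral.sum _ fun i _ => ?_
    rw [Algebra.smul_def]
    exact (hc _ (hQ k i)).mul (hj.pow i)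
  exact isIntegral_of_monic_relation (wC p) n _ hy hrel

theorem coeffMap_intCast_injective :
    Function.Injective (coeffMap (Int.castRingHom ℂ)) := by
  intro x y h
  ext m
  have := congrArg (fun z => z.coeff m) h
  simpa [coeffMap_coeff] using this

theorem coeffMap_comp_evalAt :
    (coeffMap (Int.castRingHom ℂ)).comp (evalAt (jqModC ℤ)) = evalAt (jqModC ℂ) := by
  refine Polynomial.ringHom_ext (fun a => ?_) ?_
  · simp [evalAt]
  · simp [evalAt, coeffMap_jqModC]

theorem coeffMap_w (p : ℕ) [NeZero p] :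
    coeffMap (Int.castRingHom ℂ) ((p : LaurentSeries ℤ) ^ 12 * unitL ℤ p) = wC p := by
  rw [wC, map_mul, map_pow, map_natCast, h88_coeffMap_unitL]

/-- **[A-W]** `p¹² Δ(q^p)/Δ(q)` is integral over `ℤ[j]`: exact statement of the captain stub
(the primality hypothesis is not used). -/
theorem nonempty_unitPolyData (p : ℕ) [NeZero p] (_hp : p.Prime) : Nonempty (UnitPolyData p) := by
  obtain ⟨W, hW, hroot⟩ := isIntegralElem_wC p
  refine ⟨⟨W, hW, ?_⟩⟩
  apply coeffMap_intCast_injective
  rw [map_zero, Polynomial.hom_eval₂, coeffMap_comp_evalAt, coeffMap_w]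
  exact hroot

end Fermat.Agent.S28.H19

end
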